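/-
Programme T1B (row 38 via S44), NODE/PHI cell (helper45), brick LEVEL-ARITH (helper90), file 1:
**the uniformiser `π_E` and the ramification index `e_E` of a complete level**.

`E ⊂ ℚ̄_p` finite over `ℚ_p`, `O_E = intSubring p E` (a DVR: `LocalBase.isDVR_O`).

* norm criteria in `O_E` (no finiteness needed): `dvd_of_norm_le`, `norm_le_of_dvd`,
  `isUnit_of_norm_eq_one`, `norm_eq_one_of_isUnit`, `associated_of_norm_eq`, `norm_eq_of_associated`;
* `piE E : O_E`, `irreducible_piE`, `maximalIdeal_eq_span_piE`, `piE_dvd_iff_norm_lt_one`;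
* `eE E : ℕ`, `eE_pos`, **`associated_p_pow : Associated (p : O_E) (piE E ^ eE E)`**,
  `norm_piE_pow_eE : ‖π_E‖ ^ e_E = p⁻¹`;
* **`exists_associated_pow_of_norm`** : `a ≠ 0`, `‖a‖ = p ^ n` (`n : ℤ`) ⇒ `a ~ π_E ^ (e_E * m)`.
-/
import Mathlib
import Fermat.Agent.T1B.Local66.LocalBase

set_option autoImplicit false
set_option linter.unusedSectionVars false
set_option linter.style.haveILetI false

open Fermat.Agent.TW.B5.Iface Fermat.Agent.T1.IntSub47
open Fermat.Agent.T1B.Local66.LocalBase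

noncomputable section

namespace Fermat.Agent.T1B.Level90

variable {p : ℕ} [Fact p.Prime] (E : IntermediateField ℚ_[p] (Kbar p))

/-! ### Norm criteria in `O_E` -/

theorem coe_ne_zero {a : ↥(intSubring p E)} (ha : a ≠ 0) : (a : Kbar p) ≠ 0 :=
  fun h => ha (Subtype.ext h)

/-- Divisibility in `O_E` from a comparison of norms. -/
theorem dvd_of_norm_le {a b : ↥(intSubring p E)} (hb : b ≠ 0)
    (h : ‖(a : Kbar p)‖ ≤ ‖(b : Kbar p)‖) : b ∣ a := by
  have hb0 : (b : Kbar p) ≠ 0 := coe_ne_zero E hb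
  have hbn : 0 < ‖(b : Kbar p)‖ := norm_pos_iff.2 hb0
  have hmem : (a : Kbar p) / (b : Kbar p) ∈ intSubring p E := by
    refine ⟨E.div_mem a.2.1 b.2.1, ?_⟩
    rw [norm_div]
    exact (div_le_one hbn).2 h
  refine ⟨⟨(a : Kbar p) / (b : Kbar p), hmem⟩, Subtype.ext ?_⟩
  show (a : Kbar p) = (b : Kbar p) * ((a : Kbar p) / (b : Kbar p))
  field_simp

theorem norm_le_of_dvd {a b : ↥(intSubring p E)} (h : b ∣ a) :
    ‖(a : Kbar p)‖ ≤ ‖(b : Kbar p)‖ := by
  obtain ⟨c, rfl⟩ := h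
  show ‖(b : Kbar p) * (c : Kbar p)‖ ≤ _
  rw [norm_mul]
  exact mul_le_of_le_one_right (norm_nonneg _) c.2.2

theorem norm_eq_one_of_isUnit {u : ↥(intSubring p E)} (hu : IsUnit u) : ‖(u : Kbar p)‖ = 1 := by
  have h1 : ‖((1 : ↥(intSubring p E)) : Kbar p)‖ ≤ ‖(u : Kbar p)‖ :=
    norm_le_of_dvd E hu.dvd
  have h2 : ((1 : ↥(intSubring p E)) : Kbar p) = 1 := rfl
  rw [h2, norm_one] at h1
  exact le_antisymm u.2.2 h1

theorem isUnit_of_norm_eq_one {u : ↥(intSubring p E)} (hu : ‖(u : Kbar p)‖ = 1) : IsUnit u := by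
  have hu0 : u ≠ 0 := by
    rintro rfl
    have h0 : ((0 : ↥(intSubring p E)) : Kbar p) = 0 := rfl
    rw [h0, norm_zero] at hu
    exact zero_ne_one hu
  have h1 : u ∣ 1 := dvd_of_norm_le E hu0 (by rw [hu]; exact (1 : ↥(intSubring p E)).2.2)
  exact isUnit_of_dvd_one h1

theorem isUnit_iff_norm_eq_one {u : ↥(intSubring p E)} : IsUnit u ↔ ‖(u : Kbar p)‖ = 1 :=
  ⟨norm_eq_one_of_isUnit E, isUnit_of_norm_eq_one E⟩

theorem associated_of_norm_eq {a b : ↥(intSubring p E)} (hb : b ≠ 0)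
    (h : ‖(a : Kbar p)‖ = ‖(b : Kbar p)‖) : Associated a b := by
  have ha : a ≠ 0 := by
    rintro rfl
    have h0 : ((0 : ↥(intSubring p E)) : Kbar p) = 0 := rfl
    rw [h0, norm_zero] at h
    exact coe_ne_zero E hb (norm_eq_zero.1 h.symm)
  exact associated_of_dvd_dvd (dvd_of_norm_le E ha h.ge) (dvd_of_norm_le E hb h.le)

theorem norm_eq_of_associated {a b : ↥(intSubring p E)} (h : Associated a b) :
    ‖(a : Kbar p)‖ = ‖(b : Kbar p)‖ :=
  le_antisymm (norm_le_of_dvd E h.symm.dvd) (norm_le_of_dvd E h.dvd)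

theorem coe_natCast_O (n : ℕ) : ((n : ↥(intSubring p E)) : Kbar p) = (n : Kbar p) := rfl

theorem natCast_p_ne_zero : ((p : ℕ) : ↥(intSubring p E)) ≠ 0 := by
  intro h
  have h' : ((p : ℕ) : Kbar p) = 0 := by
    rw [← coe_natCast_O E p, h]; rfl
  exact (norm_p_pos p).ne' (by rw [h', norm_zero])

/-! ### The uniformiser -/

variable [FiniteDimensional ℚ_[p] E]

theorem exists_irreducible_O : ∃ ϖ : ↥(intSubring p E), Irreducible ϖ :=
  haveI := isDVR_O E
  IsDiscreteValuationRing.exists_irreducible _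

/-- A uniformiser of `O_E`. -/
def piE : ↥(intSubring p E) := Classical.choose (exists_irreducible_O E)

theorem irreducible_piE : Irreducible (piE E) := Classical.choose_spec (exists_irreducible_O E)

theorem piE_ne_zero : piE E ≠ 0 := (irreducible_piE E).ne_zero

theorem maximalIdeal_eq_span_piE :
    haveI := isDVR_O E
    IsLocalRing.maximalIdeal ↥(intSubring p E) = Ideal.span {piE E} := by
  haveI := isDVR_O E
  exact (irreducible_piE E).maximalIdeal_eq

theorem norm_piE_lt_one : ‖(piE E : Kbar p)‖ < 1 := by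
  rcases lt_or_eq_of_le (piE E).2.2 with h | h
  · exact h
  · exact absurd (isUnit_of_norm_eq_one E h) (irreducible_piE E).not_isUnit

theorem norm_piE_pos : 0 < ‖(piE E : Kbar p)‖ := norm_pos_iff.2 (coe_ne_zero E (piE_ne_zero E))

/-- The elements of norm `< 1` are the multiples of `π_E`. -/
theorem piE_dvd_of_norm_lt_one {a : ↥(intSubring p E)} (h : ‖(a : Kbar p)‖ < 1) : piE E ∣ a := by
  haveI := isDVR_O E
  have hmem : a ∈ IsLocalRing.maximalIdeal ↥(intSubring p E) := by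
    rw [IsLocalRing.mem_maximalIdeal, mem_nonunits_iff]
    intro hu
    exact h.ne (norm_eq_one_of_isUnit E hu)
  rw [(irreducible_piE E).maximalIdeal_eq, Ideal.mem_span_singleton] at hmem
  exact hmem

theorem norm_lt_one_of_piE_dvd {a : ↥(intSubring p E)} (h : piE E ∣ a) : ‖(a : Kbar p)‖ < 1 :=
  lt_of_le_of_lt (norm_le_of_dvd E h) (norm_piE_lt_one E)

theorem piE_dvd_iff_norm_lt_one {a : ↥(intSubring p E)} : piE E ∣ a ↔ ‖(a : Kbar p)‖ < 1 :=
  ⟨norm_lt_one_of_piE_dvd E, piE_dvd_of_norm_lt_one E⟩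

/-! ### The ramification index -/

theorem exists_eE : ∃ n : ℕ, Associated ((p : ℕ) : ↥(intSubring p E)) (piE E ^ n) :=
  haveI := isDVR_O E
  IsDiscreteValuationRing.associated_pow_irreducible (natCast_p_ne_zero E) (irreducible_piE E)

/-- The ramification index of `E / ℚ_p`. -/
def eE : ℕ := Classical.choose (exists_eE E)

/-- **`p ~ π_E ^ e_E`.** -/
theorem associated_p_pow : Associated ((p : ℕ) : ↥(intSubring p E)) (piE E ^ eE E) :=
  Classical.choose_spec (exists_eE E)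

theorem norm_piE_pow_eE : ‖(piE E : Kbar p)‖ ^ eE E = (p : ℝ)⁻¹ := by
  have h := norm_eq_of_associated E (associated_p_pow E)
  rw [Subring.coe_pow, norm_pow] at h
  rw [← h]
  exact Fermat.Agent.T1.LocModel46.norm_natCast_self p

theorem eE_pos : 0 < eE E := by
  rcases Nat.eq_zero_or_pos (eE E) with h | h
  · exfalso
    have h1 := norm_piE_pow_eE E
    rw [h, pow_zero] at h1
    have h2 : (p : ℝ)⁻¹ < 1 :=
      inv_lt_one_of_one_lt₀ (by exact_mod_cast (Fact.out : p.Prime).one_lt)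
    linarith
  · exact h

/-- `π_E ∣ p`. -/
theorem piE_dvd_p : piE E ∣ ((p : ℕ) : ↥(intSubring p E)) :=
  (dvd_pow_self (piE E) (Nat.pos_iff_ne_zero.1 (eE_pos E))).trans (associated_p_pow E).symm.dvd

/-- **An element of `O_E` whose norm lies in `p ^ ℤ` is associated to a power of `π_E ^ e_E`.** -/
theorem exists_associated_pow_of_norm {a : ↥(intSubring p E)} {n : ℤ}
    (hn : ‖(a : Kbar p)‖ = (p : ℝ) ^ n) : ∃ m : ℕ, Associated a (piE E ^ (eE E * m)) := by
  have hp1 : (1 : ℝ) < p := by exact_mod_cast (Fact.out : p.Prime).one_lt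
  have hn0 : n ≤ 0 := by
    by_contra hcon
    have h1 : (1 : ℝ) < (p : ℝ) ^ n := one_lt_zpow₀ hp1 (not_le.1 hcon)
    have h2 := a.2.2
    rw [hn] at h2
    linarith
  obtain ⟨m, rfl⟩ : ∃ m : ℕ, n = -(m : ℤ) := ⟨(-n).toNat, by omega⟩
  refine ⟨m, associated_of_norm_eq E (pow_ne_zero _ (piE_ne_zero E)) ?_⟩
  rw [hn, Subring.coe_pow, norm_pow, pow_mul, norm_piE_pow_eE, zpow_neg, zpow_natCast, inv_pow]

end Fermat.Agent.T1B.Level90
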