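/-
Programme T1B (row 38 via S44), NODE/PHI cell (helper45), brick LEVEL-ARITH (helper90), file 2:
**the inertia group acts on a level by `W`-algebra automorphisms**, and the arithmetic fields
`hirr hcomp hres hU` of `Node45.Phi.LevelHyp`.

`K` an INERTIAL number field (`hK : InertFixed (padicPlace p) K`), `W = Wb p K`, `E : NLevel p K`,
`O_E = intSubring p E.E`, `G = ↥(Ip p)` the local inertia group.

* `tauO hK E τ : O_E ≃ₐ[W] O_E`, `tauL hK E τ : E.E ≃ₐ[W] E.E` (algebra structures `algWO E.lev`,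
  `algWE E.lev`), `tauO_apply`, `tauL_apply` (`rfl`);
* `hcomp`, `hres`, **`hU`** in the exact shape of the fields of `LevelHyp`
  (`π := piE E.E`, `K := eE E.E`).
-/
import Mathlib
import Fermat.Agent.T1B.Level90.Unif
import Fermat.Agent.T1B.Bridge54.IpInst
import Fermat.Agent.T1.Peu37.H90

set_option autoImplicit false
set_option linter.unusedSectionVars false
set_option linter.style.haveILetI false
set_option synthInstance.maxHeartbeats 400000
set_option maxHeartbeats 1000000

open Fermat.Agent.TW.B5.Iface Fermat.Agent.RED.Interface4 Fermat.Agent.T1.HubInst98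
open Fermat.Agent.T1.IntSub47
open Fermat.Agent.T1B.Local66.LocalBase Fermat.Agent.T1B.Local66.Union
open Fermat.Agent.T1B.Plumb66.Inertia (Ip mem_Ip)
open Fermat.Agent.ES.P36.InertField27 (InertFixed)

noncomputable section

namespace Fermat.Agent.T1B.Level90

variable {p : ℕ} [Fact p.Prime] {K : IntermediateField ℚ Qbar}

/-! ### Ring automorphisms of `O_E`, `E` -/

section Equiv

variable {F : IntermediateField ℚ_[p] (Kbar p)} (hN : IsNormalLevel F)

/-- `τ` on `O_F` as a ring automorphism. -/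
def galOEquiv (τ : Gp p) : ↥(intSubring p F) ≃+* ↥(intSubring p F) :=
  RingEquiv.ofRingHom (galO hN τ) (galO hN τ⁻¹)
    (RingHom.ext fun y => by
      rw [RingHom.comp_apply, ← galO_mul, mul_inv_cancel, galO_one, RingHom.id_apply])
    (RingHom.ext fun y => by
      rw [RingHom.comp_apply, ← galO_mul, inv_mul_cancel, galO_one, RingHom.id_apply])

@[simp] theorem galOEquiv_apply (τ : Gp p) (y : ↥(intSubring p F)) :
    galOEquiv hN τ y = galO hN τ y := rfl

/-- `τ` on `F` as a ring automorphism. -/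
def galEEquiv (τ : Gp p) : ↥F ≃+* ↥F :=
  RingEquiv.ofRingHom (galE hN τ) (galE hN τ⁻¹)
    (RingHom.ext fun y => by
      rw [RingHom.comp_apply, ← galE_mul, mul_inv_cancel, galE_one, RingHom.id_apply])
    (RingHom.ext fun y => by
      rw [RingHom.comp_apply, ← galE_mul, inv_mul_cancel, galE_one, RingHom.id_apply])

@[simp] theorem galEEquiv_apply (τ : Gp p) (y : ↥F) : galEEquiv hN τ y = galE hN τ y := rfl

end Equiv

/-! ### The `W`-algebra automorphisms -/

variable (hK : InertFixed (padicPlace p) K) (E : NLevel p K)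

/-- **`τ ∈ I_p` on `O_E`, a `W`-algebra automorphism.** -/
def tauO (τ : ↥(Ip p)) :
    letI := algWO E.lev
    ↥(intSubring p E.E) ≃ₐ[Wb p K] ↥(intSubring p E.E) :=
  letI := algWO E.lev
  AlgEquiv.ofRingEquiv (f := galOEquiv E.nor (τ : Gp p))
    (fun w => galO_toO hK E.lev E.nor τ w)

/-- **`τ ∈ I_p` on `E`, a `W`-algebra automorphism.** -/
def tauL (τ : ↥(Ip p)) :
    letI := algWE E.lev
    ↥E.E ≃ₐ[Wb p K] ↥E.E :=
  letI := algWE E.lev
  AlgEquiv.ofRingEquiv (f := galEEquiv E.nor (τ : Gp p))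
    (fun w => galE_toE hK E.lev E.nor τ (w : ↥K))

theorem tauO_apply (τ : ↥(Ip p)) (a : ↥(intSubring p E.E)) :
    letI := algWO E.lev
    tauO hK E τ a = galO E.nor (τ : Gp p) a := rfl

theorem tauL_apply (τ : ↥(Ip p)) (a : ↥E.E) :
    letI := algWE E.lev
    tauL hK E τ a = galE E.nor (τ : Gp p) a := rfl

theorem coe_tauO (τ : ↥(Ip p)) (a : ↥(intSubring p E.E)) :
    letI := algWO E.lev
    ((tauO hK E τ a : ↥(intSubring p E.E)) : Kbar p) = (τ : Gp p) (a : Kbar p) := rfl

theorem coe_tauL (τ : ↥(Ip p)) (a : ↥E.E) :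
    letI := algWE E.lev
    ((tauL hK E τ a : ↥E.E) : Kbar p) = (τ : Gp p) (a : Kbar p) := rfl

/-! ### The fields `hcomp`, `hres`, `hU` of `LevelHyp` -/

/-- `hcomp`. -/
theorem hcomp (τ : ↥(Ip p)) (a : ↥(intSubring p E.E)) :
    letI := algWO E.lev
    letI := algWE E.lev
    letI := algOE E.E
    tauL hK E τ (algebraMap ↥(intSubring p E.E) ↥E.E a) =
      algebraMap ↥(intSubring p E.E) ↥E.E (tauO hK E τ a) := rfl

/-- `hres`: inertia acts trivially on the residue field. -/
theorem hres (τ : ↥(Ip p)) (a : ↥(intSubring p E.E)) :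
    letI := algWO E.lev
    haveI := isDVR_O E.E
    tauO hK E τ a - a ∈ IsLocalRing.maximalIdeal ↥(intSubring p E.E) :=
  Fermat.Agent.T1B.Bridge54.IpInst.galO_sub_mem_maximalIdeal E τ a

/-- **`hU`**: an inertia-invariant element of `O_E` is associated to a power of `π_E ^ e_E ~ p`. -/
theorem hU (a : ↥(intSubring p E.E)) (ha : a ≠ 0)
    (hfix : letI := algWO E.lev
      ∀ τ : ↥(Ip p), tauO hK E τ a = a) :
    ∃ m : ℕ, Associated a (piE E.E ^ (eE E.E * m)) := by
  have hx : (a : Kbar p) ≠ 0 := coe_ne_zero E.E ha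
  have hfix' : ∀ τ : Gp p, IsInertial p τ → τ (a : Kbar p) = a := by
    intro τ hτ
    have h := hfix ⟨τ, (mem_Ip p).2 hτ⟩
    exact congrArg (fun z : ↥(intSubring p E.E) => (z : Kbar p)) h
  obtain ⟨n, hn⟩ := Fermat.Agent.T1.Peu37.H90.norm_of_inertia_fixed p hx hfix'
  exact exists_associated_pow_of_norm E.E hn

end Fermat.Agent.T1B.Level90
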