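/-
Programme T1B (row 38 via S44), NODE/PHI cell (helper45), brick LEVEL-ARITH (helper90), file 3:
**the base change hypothesis `NodeBC.BCHyp` for `W' = A ∩ K' → O_E`**, `K'` the inertial part of the
number field of the level.

`E : NLevel p K`, `K' := Kin E = inertiaPart (padicPlace p) E.L` (finite, INERTIAL: `isInertial_Kin`,
`K ≤ K'` when `K` is fixed by inertia: `le_Kin`, `IsLevel p K' E.E`: `lev_Kin`),
`f := toO (lev_Kin E) : Wb p K' →+* O_E`.

* `bcHyp_of_res E hres : BCHyp f (p : Wb p K') (piE E.E) (eE E.E)` from the equality of the residue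
  fields of `K'` and `E.L` in the norm form
  `hres : ∀ x : Wb p E.L, ∃ r : Wb p K', ‖ι x - ι r‖ < 1`
  [`e_pos`, `map_pi` : `Unif.lean`;  `surj` : `NodalBC53.Level.sameFibre_level` (`ι E.L` dense in
  `E.E`) + `hres`;  `inj` : `ES.P36.UnrFixed1.dvd_of_mem_maximalIdeal` (`p` is a uniformiser of
  `A ∩ K'`)].
-/
import Mathlib
import Fermat.Agent.T1B.Level90.Unif
import Fermat.Agent.T1B.Local66.Union
import Fermat.Agent.T1B.NodalBC53.Level
import Fermat.Agent.ES.P36.UnrFixed1
import Fermat.Agent.T1B.Node45.NodeBC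

set_option autoImplicit false
set_option linter.unusedSectionVars false
set_option linter.style.haveILetI false
set_option synthInstance.maxHeartbeats 400000
set_option maxHeartbeats 1000000

open Fermat.Agent.TW.B5.Iface Fermat.Agent.RED.Interface4 Fermat.Agent.T1.HubInst98
open Fermat.Agent.T1.IntSub47
open Fermat.Agent.T1B.Local66.LocalBase Fermat.Agent.T1B.Local66.Union
open Fermat.Agent.ES.P36.InertField27
open Fermat.Agent.T1B.NodalBC53.Level Fermat.Agent.T1B.NodalBC53.Fibre
open Fermat.Agent.T1B.Node45.NodeBC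

noncomputable section

namespace Fermat.Agent.T1B.Level90

variable {p : ℕ} [Fact p.Prime] {K : IntermediateField ℚ Qbar} (E : NLevel p K)

/-! ### The inertial part of the number field of a level -/

/-- `K' = E.L ^ I_A`, the inertial part of the number field of the level. -/
def Kin : IntermediateField ℚ Qbar := inertiaPart (padicPlace p) E.L

theorem Kin_le : Kin E ≤ E.L := inertiaPart_le E.L

instance finiteDimensional_Kin : FiniteDimensional ℚ ↥(Kin E) :=
  finiteDimensional_of_le (Kin_le E)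

theorem isInertial_Kin : IsInertial (padicPlace p) (Kin E) := isInertial_inertiaPart E.L

theorem inertFixed_Kin : InertFixed (padicPlace p) (Kin E) := (isInertial_Kin E).1

theorem le_Kin (hK : InertFixed (padicPlace p) K) : K ≤ Kin E := le_inertiaPart E.leL hK

theorem lev_Kin : IsLevel p (Kin E) E.E := fun x => E.levL ⟨(x : Qbar), Kin_le E x.2⟩

/-- `ι E.L` is dense in `E.E`. -/
theorem denseIn_level : DenseIn p E.L E.E := by
  rw [E.hE]
  exact denseIn_localField p E.L

/-! ### Norms and the maximal ideal of `A ∩ L` -/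

theorem mem_maximalIdeal_Wb_of_norm_lt_one {L : IntermediateField ℚ Qbar} {a : Wb p L}
    (h : ‖iotaW p L a‖ < 1) : a ∈ IsLocalRing.maximalIdeal (Wb p L) := by
  rw [IsLocalRing.mem_maximalIdeal, mem_nonunits_iff]
  intro hu
  obtain ⟨b, hb⟩ := hu.exists_right_inv
  have h1 : iotaW p L a * iotaW p L b = 1 := by rw [← map_mul, hb, map_one]
  have h2 : ‖iotaW p L a‖ * ‖iotaW p L b‖ = 1 := by rw [← norm_mul, h1, norm_one]
  have h3 := norm_iotaW_le_one p L b
  nlinarith [norm_nonneg (iotaW p L a), norm_nonneg (iotaW p L b)]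

/-! ### `BCHyp` -/

theorem natCast_p_Wb_ne_zero (L : IntermediateField ℚ Qbar) : ((p : ℕ) : Wb p L) ≠ 0 := by
  intro h0
  have h1 : iotaW p L ((p : ℕ) : Wb p L) = 0 := by rw [h0, map_zero]
  rw [map_natCast] at h1
  exact (norm_p_pos p).ne' (by rw [h1, norm_zero])

/-- (map_pi): `p = π_E ^ e_E · unit` in `O_E`. -/
theorem map_pi_Kin : ∃ u : ↥(intSubring p E.E), IsUnit u ∧
    toO (lev_Kin E) ((p : ℕ) : Wb p (Kin E)) = piE E.E ^ eE E.E * u := by
  obtain ⟨u, hu⟩ := (associated_p_pow E.E).symm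
  exact ⟨u, u.isUnit, by rw [map_natCast, hu]⟩

/-- (inj): `p` is a uniformiser of `A ∩ K'`. -/
theorem inj_Kin (a : Wb p (Kin E)) (hdvd : piE E.E ∣ toO (lev_Kin E) a) :
    ((p : ℕ) : Wb p (Kin E)) ∣ a := by
  have hlt := norm_lt_one_of_piE_dvd E.E hdvd
  rw [coe_toO] at hlt
  have hmem : a ∈ IsLocalRing.maximalIdeal (Wb p (Kin E)) :=
    mem_maximalIdeal_Wb_of_norm_lt_one hlt
  have := Fermat.Agent.ES.P36.UnrFixed1.dvd_of_mem_maximalIdeal (padicPlace p) (Fact.out)
    (Fermat.Agent.T1.LocModel46.liesOverPrime p) (Kin E) (inertFixed_Kin E) a hmem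
  exact this

/-- (surj): the residue fields of `K'` and `E.E` agree. -/
theorem surj_Kin
    (hres : ∀ x : Wb p E.L, ∃ r : Wb p (Kin E), ‖iotaW p E.L x - iotaW p (Kin E) r‖ < 1)
    (a' : ↥(intSubring p E.E)) :
    ∃ (a : Wb p (Kin E)) (c : ↥(intSubring p E.E)), a' = toO (lev_Kin E) a + piE E.E * c := by
  obtain ⟨x, z, hxz⟩ :=
    (sameFibre_level E.levL (denseIn_level E) (natCast_p_Wb_ne_zero E.L)).surj a'
  obtain ⟨r, hr⟩ := hres x
  have h1 : piE E.E ∣ toO E.levL x - toO (lev_Kin E) r := by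
    apply piE_dvd_of_norm_lt_one E.E
    have h0 : ((toO E.levL x - toO (lev_Kin E) r : ↥(intSubring p E.E)) : Kbar p) =
        iotaW p E.L x - iotaW p (Kin E) r := rfl
    rw [h0]
    exact hr
  have h2 : piE E.E ∣ toO E.levL ((p : ℕ) : Wb p E.L) := by
    rw [map_natCast]
    exact piE_dvd_p E.E
  obtain ⟨c1, hc1⟩ := h1
  obtain ⟨c2, hc2⟩ := h2
  refine ⟨r, c1 + c2 * z, ?_⟩
  rw [hxz, hc2]
  linear_combination hc1

/-- **The base change hypothesis for `A ∩ K' → O_E`**, from the equality of the residue fields of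
`K'` and `E.L`. -/
theorem bcHyp_of_res
    (hres : ∀ x : Wb p E.L, ∃ r : Wb p (Kin E), ‖iotaW p E.L x - iotaW p (Kin E) r‖ < 1) :
    BCHyp (toO (lev_Kin E)) ((p : ℕ) : Wb p (Kin E)) (piE E.E) (eE E.E) where
  e_pos := eE_pos E.E
  map_pi := map_pi_Kin E
  surj := surj_Kin E hres
  inj := inj_Kin E

end Fermat.Agent.T1B.Level90
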