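/-
Programme T1B (row 38 via S44), NODE/PHI cell (helper45), brick LEVEL-ARITH (helper90), file 4:
**`BCHyp` for `A ∩ K' → O_E`, unconditionally** (`K' = Kin E` the inertial part of `E.L`), from
helper37's equality of residue fields `NodeNF37.ResEq.exists_sub_mem_nonunits`.

* `res_Kin E : ∀ x : Wb p E.L, ∃ r : Wb p (Kin E), ‖ι x - ι r‖ < 1`;
* **`bcHyp E : BCHyp (toO (lev_Kin E)) (p : Wb p (Kin E)) (piE E.E) (eE E.E)`**,
  `bcHyp_algebraMap E` (the same, stated with `algebraMap` under `letI := algWO (lev_Kin E)`, the input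
  shape of `NodeBCTensor.bcHyp_tensor`);
* `tower_W_Kin_O hK E : IsScalarTower (Wb p K) (Wb p (Kin E)) O_E`
  (structures `algAK (padicPlace p) (le_Kin E hK)`, `algWO (lev_Kin E)`, `algWO E.lev`).
-/
import Mathlib
import Fermat.Agent.T1B.Level90.BC
import Fermat.Agent.T1B.NodeNF37.ResEq

set_option autoImplicit false
set_option linter.unusedSectionVars false
set_option linter.style.haveILetI false
set_option synthInstance.maxHeartbeats 400000
set_option maxHeartbeats 1000000

open Fermat.Agent.TW.B5.Iface Fermat.Agent.RED.Interface4 Fermat.Agent.T1.HubInst98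
open Fermat.Agent.T1.IntSub47
open Fermat.Agent.T1B.Local66.LocalBase Fermat.Agent.T1B.Local66.Union
open Fermat.Agent.ES.P36.InertField27
open Fermat.Agent.T1B.NodalBC53.Level Fermat.Agent.T1B.NodalBC53.Fibre
open Fermat.Agent.T1B.Node45.NodeBC

noncomputable section

namespace Fermat.Agent.T1B.Level90

variable {p : ℕ} [Fact p.Prime] {K : IntermediateField ℚ Qbar} (E : NLevel p K)

/-- **The residue fields of `K' = Kin E` and of `E.L` agree** (norm form). -/
theorem res_Kin (x : Wb p E.L) :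
    ∃ r : Wb p (Kin E), ‖iotaW p E.L x - iotaW p (Kin E) r‖ < 1 := by
  haveI := E.norL
  haveI := E.finL
  have hxA : (((x : ↥E.L) : Qbar)) ∈ padicPlace p :=
    (Fermat.Agent.RED.DESC.NumberFieldDVR27.mem_AK_iff (padicPlace p) E.L _).1 x.2
  obtain ⟨r, hr⟩ := Fermat.Agent.T1B.NodeNF37.ResEq.exists_sub_mem_nonunits (padicPlace p) E.L
    (Kin E) (Fact.out : p.Prime).ne_zero (Fermat.Agent.T1.LocModel46.liesOverPrime p)
    (fun y hy hfix => mem_inertiaPart.2 ⟨hy, hfix⟩) (x : ↥E.L).2 hxA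
  refine ⟨r, ?_⟩
  rw [ValuationSubring.valuation_lt_one_iff] at hr
  have h2 : (padicPlace p).valuation (((x : ↥E.L) : Qbar) - (((r : ↥(Kin E)) : Qbar))) < 1 := hr
  rw [Fermat.Agent.T1.LocModel46.valuation_sub_lt_one_iff] at h2
  exact h2

/-- **`BCHyp` for `A ∩ K' → O_E`.** -/
theorem bcHyp : BCHyp (toO (lev_Kin E)) ((p : ℕ) : Wb p (Kin E)) (piE E.E) (eE E.E) :=
  bcHyp_of_res E (res_Kin E)

/-- The same, stated with `algebraMap` (input shape of `NodeBCTensor.bcHyp_tensor`). -/
theorem bcHyp_algebraMap :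
    letI := algWO (lev_Kin E)
    BCHyp (algebraMap (Wb p (Kin E)) ↥(intSubring p E.E)) ((p : ℕ) : Wb p (Kin E)) (piE E.E)
      (eE E.E) :=
  bcHyp E

/-- The tower `W = A ∩ K → A ∩ K' → O_E`. -/
theorem tower_W_Kin_O (hK : InertFixed (padicPlace p) K) :
    letI := algAK (padicPlace p) (le_Kin E hK)
    letI := algWO (lev_Kin E)
    letI := algWO E.lev
    IsScalarTower (Wb p K) (Wb p (Kin E)) ↥(intSubring p E.E) := by
  letI := algAK (padicPlace p) (le_Kin E hK)
  letI := algWO (lev_Kin E)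
  letI := algWO E.lev
  exact IsScalarTower.of_algebraMap_eq' rfl

end Fermat.Agent.T1B.Level90
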