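/-
Programme T1B (row 38 via S44), NODE/PHI cell (helper45), brick LEVEL-ARITH (helper90), file 5:
complements for the consumer `Level69.Pack.levelHyp_of` (helper69).

`E : NLevel p K`, `K' = Kin E`, `O₀ = Wb p K'`, `O = O_E`.

* `tauO_toO_Kin hK E τ a : tauO hK E τ (toO (lev_Kin E) a) = toO (lev_Kin E) a`, and
  `hτ_Kin` (the same with `algebraMap` under `letI := algWO (lev_Kin E)`): inertia fixes the image
  of `A ∩ K'` (the `hτ` of `levelHyp_of`);
* `irreducible_natCast_Kin E : Irreducible (p : Wb p K')`,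
  `associated_natCast_Kin E (h : Irreducible ϖ) : Associated (p : Wb p K') ϖ`;
* `bcHyp_unif E (h : Irreducible ϖ) : BCHyp (toO (lev_Kin E)) ϖ (piE E.E) (eE E.E)`
  (any uniformiser of `A ∩ K'` in place of `p`), `bcHyp_unif_algebraMap`.
-/
import Mathlib
import Fermat.Agent.T1B.Level90.Aut
import Fermat.Agent.T1B.Level90.BCFinal

set_option autoImplicit false
set_option linter.unusedSectionVars false
set_option linter.style.haveILetI false
set_option synthInstance.maxHeartbeats 400000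
set_option maxHeartbeats 1000000

open Fermat.Agent.TW.B5.Iface Fermat.Agent.RED.Interface4 Fermat.Agent.T1.HubInst98
open Fermat.Agent.T1.IntSub47
open Fermat.Agent.T1B.Local66.LocalBase Fermat.Agent.T1B.Local66.Union
open Fermat.Agent.T1B.Plumb66.Inertia (Ip mem_Ip)
open Fermat.Agent.ES.P36.InertField27
open Fermat.Agent.T1B.Node45.NodeBC

noncomputable section

namespace Fermat.Agent.T1B.Level90

variable {p : ℕ} [Fact p.Prime] {K : IntermediateField ℚ Qbar}

/-! ### Inertia fixes the image of `A ∩ K'` -/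

/-- Inertia fixes the image of `A ∩ K'` in `O_E`. -/
theorem tauO_toO_Kin (hK : InertFixed (padicPlace p) K) (E : NLevel p K) (τ : ↥(Ip p))
    (a : Wb p (Kin E)) :
    letI := algWO E.lev
    tauO hK E τ (toO (lev_Kin E) a) = toO (lev_Kin E) a :=
  galO_toO (inertFixed_Kin E) (lev_Kin E) E.nor τ a

/-- The `hτ` of `Level69.Pack.levelHyp_of`. -/
theorem hτ_Kin (hK : InertFixed (padicPlace p) K) (E : NLevel p K) (τ : ↥(Ip p))
    (a : Wb p (Kin E)) :
    letI := algWO E.lev
    letI := algWO (lev_Kin E)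
    tauO hK E τ (algebraMap (Wb p (Kin E)) ↥(intSubring p E.E) a) =
      algebraMap (Wb p (Kin E)) ↥(intSubring p E.E) a :=
  tauO_toO_Kin hK E τ a

/-! ### Uniformisers of `A ∩ K'` -/

variable (E : NLevel p K)

theorem isDVR_Wb_Kin : IsDiscreteValuationRing (Wb p (Kin E)) :=
  isDVR_AK (padicPlace p) (Fact.out : p.Prime).ne_zero (Fermat.Agent.T1.LocModel46.liesOverPrime p)
    (Kin E)

/-- `p` is a uniformiser of `A ∩ K'`. -/
theorem irreducible_natCast_Kin : Irreducible ((p : ℕ) : Wb p (Kin E)) := by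
  haveI := isDVR_Wb_Kin E
  rw [IsDiscreteValuationRing.irreducible_iff_uniformizer]
  apply le_antisymm
  · intro x hx
    rw [Ideal.mem_span_singleton]
    have := Fermat.Agent.ES.P36.UnrFixed1.dvd_of_mem_maximalIdeal (padicPlace p) (Fact.out)
      (Fermat.Agent.T1.LocModel46.liesOverPrime p) (Kin E) (inertFixed_Kin E) x hx
    exact this
  · rw [Ideal.span_singleton_le_iff_mem]
    apply mem_maximalIdeal_Wb_of_norm_lt_one
    rw [map_natCast]
    exact norm_p_lt_one p

theorem associated_natCast_Kin {ϖ : Wb p (Kin E)} (h : Irreducible ϖ) :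
    Associated ((p : ℕ) : Wb p (Kin E)) ϖ := by
  haveI := isDVR_Wb_Kin E
  exact IsDiscreteValuationRing.associated_of_irreducible _ (irreducible_natCast_Kin E) h

/-- **`BCHyp` with any uniformiser of `A ∩ K'` in place of `p`.** -/
theorem bcHyp_unif {ϖ : Wb p (Kin E)} (h : Irreducible ϖ) :
    BCHyp (toO (lev_Kin E)) ϖ (piE E.E) (eE E.E) := by
  have H := bcHyp E
  obtain ⟨v, hv⟩ := associated_natCast_Kin E h
  refine ⟨H.e_pos, ?_, H.surj, ?_⟩
  · obtain ⟨u, hu, hpu⟩ := H.map_pi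
    refine ⟨u * toO (lev_Kin E) (v : Wb p (Kin E)), hu.mul (v.isUnit.map _), ?_⟩
    rw [← hv, map_mul, hpu]
    ring
  · intro a ha
    obtain ⟨c, hc⟩ := H.inj a ha
    refine ⟨((v⁻¹ : (Wb p (Kin E))ˣ) : Wb p (Kin E)) * c, ?_⟩
    rw [hc, ← hv]
    have h1 : (v : Wb p (Kin E)) * ((v⁻¹ : (Wb p (Kin E))ˣ) : Wb p (Kin E)) = 1 := v.mul_inv
    linear_combination (-(((p : ℕ) : Wb p (Kin E)) * c)) * h1

theorem bcHyp_unif_algebraMap {ϖ : Wb p (Kin E)} (h : Irreducible ϖ) :
    letI := algWO (lev_Kin E)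
    BCHyp (algebraMap (Wb p (Kin E)) ↥(intSubring p E.E)) ϖ (piE E.E) (eE E.E) :=
  bcHyp_unif E h

end Fermat.Agent.T1B.Level90
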