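/-
Programme T1B (row 38 via S44), NODE/PHI cell (helper45), brick LEVEL-ARITH (helper90), file 6:
**the bridge from `Level90` to helper45's `Node45/LocalPhi.lean`** (report 1337).

* `tauE_eq_tauL hK E : LocalPhi.tauE hK E = Level90.tauL hK E`,
  `tauO_eq hK E : LocalPhi.tauO hK E = Level90.tauO hK E`;
* `levelData_of c0 hK E H : LocalPhi.LevelData c0 hK E` from
  `H : Phi.LevelHyp c0 O_E E.E (piE E.E) (tauL hK E) (tauO hK E) (eE E.E)`
  (`levelData_of_π`, `levelData_of_e` by `rfl`);
* the final statements of `LocalPhi` with ALL the arithmetic inputs discharged: hypothesis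
  `HL : ∀ E : NLevel p K, Phi.LevelHyp c0 O_E E.E (piE E.E) (tauL hK E) (tauO hK E) (eE E.E)`
  instead of `D`, and `hπ := maximalIdeal_eq_span_piE` discharged:
  `mem_JextTop_of_invariant'`, `phi_top'`, `phi_glue'`, `sub_mem_J0_top'`
  (`sub_mem_J0_top'` asks `hg E : NodalGood (c0.baseChange O_E) (piE E.E) ι`, `X E`, `hP`).
-/
import Mathlib
import Fermat.Agent.T1B.Level90.Aut
import Fermat.Agent.T1B.Node45.LocalPhi

set_option autoImplicit false
set_option linter.unusedSectionVars false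
set_option linter.style.haveILetI false
set_option synthInstance.maxHeartbeats 400000
set_option maxHeartbeats 1000000

open TensorProduct

open Fermat.Agent.TW.B5.Iface Fermat.Agent.RED.Interface4 Fermat.Agent.T1.HubInst98
open Fermat.Agent.T1.IntSub47 Fermat.Agent.Jac Fermat.Agent.T1.RedIface75
open Fermat.Agent.T1.PtLine75 Fermat.Agent.T1.Red11
open Fermat.Agent.T1B.Local66.LocalBase Fermat.Agent.T1B.Local66.Union
open Fermat.Agent.T1B.Local66.Objects
open Fermat.Agent.T1B.Plumb66.Inertia (Ip mem_Ip)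
open Fermat.Agent.T1B.Bridge54.IpAction Fermat.Agent.T1B.Bridge54.IpInst
open Fermat.Agent.T1B.Bridge54.IpUnion
open Fermat.Agent.ES.P36.InertField27 (InertFixed)
open Fermat.Agent.T1B.Desc1 Fermat.Agent.T1B.Desc8 Fermat.Agent.T1B.Desc8.Effective
open Fermat.Agent.T1B.Node45.Phi
open Fermat.Agent.T1B.Bal60 Fermat.Agent.T1B.RedN3
open scoped Fermat.Agent.Jac.BaseChange75

noncomputable section

namespace Fermat.Agent.T1B.Level90

variable {p : ℕ} [Fact p.Prime] {K : IntermediateField ℚ Qbar}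

/-! ### The two families of automorphisms agree -/

theorem tauE_eq_tauL (hK : InertFixed (padicPlace p) K) (E : NLevel p K) :
    letI := algWE E.lev
    Fermat.Agent.T1B.Node45.LocalPhi.tauE hK E = tauL hK E := by
  letI := algWE E.lev
  exact funext fun τ => AlgEquiv.ext fun _ => rfl

theorem tauO_eq (hK : InertFixed (padicPlace p) K) (E : NLevel p K) :
    letI := algWO E.lev
    Fermat.Agent.T1B.Node45.LocalPhi.tauO hK E = tauO hK E := by
  letI := algWO E.lev
  exact funext fun τ => AlgEquiv.ext fun _ => rfl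

section Charts

variable {B0 B1 B01 : Type} [CommRing B0] [CommRing B1] [CommRing B01]
  [Algebra (Wb p K) B0] [Algebra (Wb p K) B1] [Algebra (Wb p K) B01] [Algebra B0 B01]
  [Algebra B1 B01] [IsScalarTower (Wb p K) B0 B01] [IsScalarTower (Wb p K) B1 B01]
  (c0 : TwoChart (Wb p K) B0 B1 B01)

/-- `LevelHyp` for the `LocalPhi` automorphisms from `LevelHyp` for the `Level90` ones. -/
theorem levelHyp_localPhi (hK : InertFixed (padicPlace p) K) (E : NLevel p K)
    (H : letI := algWO E.lev
      letI := algWE E.lev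
      letI := algOE E.E
      haveI := tower_W_O_E E.lev
      haveI := isDVR_O E.E
      haveI := isFractionRing_O_E E.E
      LevelHyp c0 ↥(intSubring p E.E) ↥E.E (piE E.E) (tauL hK E) (tauO hK E) (eE E.E)) :
    letI := algWO E.lev
    letI := algWE E.lev
    letI := algOE E.E
    haveI := tower_W_O_E E.lev
    haveI := isDVR_O E.E
    haveI := isFractionRing_O_E E.E
    LevelHyp c0 ↥(intSubring p E.E) ↥E.E (piE E.E)
      (Fermat.Agent.T1B.Node45.LocalPhi.tauE hK E) (Fermat.Agent.T1B.Node45.LocalPhi.tauO hK E)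
      (eE E.E) := by
  letI := algWO E.lev
  letI := algWE E.lev
  letI := algOE E.E
  haveI := tower_W_O_E E.lev
  haveI := isDVR_O E.E
  haveI := isFractionRing_O_E E.E
  rw [tauE_eq_tauL hK E, tauO_eq hK E]
  exact H

/-- **The per-level record of `LocalPhi`** from `LevelHyp` with the `Level90` data. -/
def levelData_of (hK : InertFixed (padicPlace p) K) (E : NLevel p K)
    (H : letI := algWO E.lev
      letI := algWE E.lev
      letI := algOE E.E
      haveI := tower_W_O_E E.lev
      haveI := isDVR_O E.E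
      haveI := isFractionRing_O_E E.E
      LevelHyp c0 ↥(intSubring p E.E) ↥E.E (piE E.E) (tauL hK E) (tauO hK E) (eE E.E)) :
    Fermat.Agent.T1B.Node45.LocalPhi.LevelData c0 hK E where
  π := piE E.E
  e := eE E.E
  hyp := levelHyp_localPhi c0 hK E H

@[simp] theorem levelData_of_π (hK : InertFixed (padicPlace p) K) (E : NLevel p K)
    (H : letI := algWO E.lev
      letI := algWE E.lev
      letI := algOE E.E
      haveI := tower_W_O_E E.lev
      haveI := isDVR_O E.E
      haveI := isFractionRing_O_E E.E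
      LevelHyp c0 ↥(intSubring p E.E) ↥E.E (piE E.E) (tauL hK E) (tauO hK E) (eE E.E)) :
    (levelData_of c0 hK E H).π = piE E.E := rfl

@[simp] theorem levelData_of_e (hK : InertFixed (padicPlace p) K) (E : NLevel p K)
    (H : letI := algWO E.lev
      letI := algWE E.lev
      letI := algOE E.E
      haveI := tower_W_O_E E.lev
      haveI := isDVR_O E.E
      haveI := isFractionRing_O_E E.E
      LevelHyp c0 ↥(intSubring p E.E) ↥E.E (piE E.E) (tauL hK E) (tauO hK E) (eE E.E)) :
    (levelData_of c0 hK E H).e = eE E.E := rfl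

/-! ### The final statements of `LocalPhi`, arithmetic inputs discharged -/

/-- `LocalPhi.mem_JextTop_of_invariant` from the level-wise `LevelHyp` with the `Level90` data. -/
theorem mem_JextTop_of_invariant' [Nonempty (NLevel p K)] [Algebra.FiniteType (Wb p K) B0]
    [Algebra.FiniteType (Wb p K) B1] (hK : InertFixed (padicPlace p) K)
    (HL : ∀ E : NLevel p K,
      letI := algWO E.lev
      letI := algWE E.lev
      letI := algOE E.E
      haveI := tower_W_O_E E.lev
      haveI := isDVR_O E.E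
      haveI := isFractionRing_O_E E.E
      LevelHyp c0 ↥(intSubring p E.E) ↥E.E (piE E.E) (tauL hK E) (tauO hK E) (eE E.E))
    (G : ∀ E : NLevel p K, letI := algWE E.lev; Subgroup (↥E.E ≃ₐ[Wb p K] ↥E.E))
    (hG : ∀ E τ, Fermat.Agent.T1B.Node45.LocalPhi.tauE hK E τ ∈ G E)
    (hG' : ∀ E, ∀ σ ∈ G E, ∃ τ : ↥(Ip p), σ = Fermat.Agent.T1B.Node45.LocalPhi.tauE hK E τ)
    (hdesc : ∀ E : NLevel p K,
      letI := algWE E.lev
      letI := algWKbar p K
      letI := algEKbar E.E
      haveI := tower_W_E_Kbar E.lev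
      DescStatement c0 ↥E.E (Kbar p) (G E))
    (hinj : ∀ E : NLevel p K, Function.Injective (bcE c0 E))
    {y : Atop p K c0} (hy : y ∈ PtTop c0)
    (hfix : letI := actTop c0 hK; ∀ τ : ↥(Ip p), τ • y = y) :
    y ∈ JextTop c0 :=
  Fermat.Agent.T1B.Node45.LocalPhi.mem_JextTop_of_invariant c0 hK
    (fun E => levelData_of c0 hK E (HL E)) G hG hG' hdesc hinj hy hfix

/-- `LocalPhi.phi_top` from the level-wise `LevelHyp` with the `Level90` data. -/
theorem phi_top' [Nonempty (NLevel p K)] [Algebra.FiniteType (Wb p K) B0]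
    [Algebra.FiniteType (Wb p K) B1] (hK : InertFixed (padicPlace p) K)
    (HL : ∀ E : NLevel p K,
      letI := algWO E.lev
      letI := algWE E.lev
      letI := algOE E.E
      haveI := tower_W_O_E E.lev
      haveI := isDVR_O E.E
      haveI := isFractionRing_O_E E.E
      LevelHyp c0 ↥(intSubring p E.E) ↥E.E (piE E.E) (tauL hK E) (tauO hK E) (eE E.E))
    (G : ∀ E : NLevel p K, letI := algWE E.lev; Subgroup (↥E.E ≃ₐ[Wb p K] ↥E.E))
    (hG : ∀ E τ, Fermat.Agent.T1B.Node45.LocalPhi.tauE hK E τ ∈ G E)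
    (hG' : ∀ E, ∀ σ ∈ G E, ∃ τ : ↥(Ip p), σ = Fermat.Agent.T1B.Node45.LocalPhi.tauE hK E τ)
    (hdesc : ∀ E : NLevel p K,
      letI := algWE E.lev
      letI := algWKbar p K
      letI := algEKbar E.E
      haveI := tower_W_E_Kbar E.lev
      DescStatement c0 ↥E.E (Kbar p) (G E))
    (hinj : ∀ E : NLevel p K, Function.Injective (bcE c0 E))
    (P00 : ∀ E : NLevel p K, Subgroup (PicO c0 E)) (hPP : Compatible c0 P00)
    (hJ1Pt : J1top c0 P00 hPP ≤ PtTop c0) :
    letI := actTop c0 hK
    ∀ y ∈ PtTop c0, ∀ t ∈ J1top c0 P00 hPP, (∀ τ : ↥(Ip p), τ • (y - t) = y - t) →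
      y - t ∈ JextTop c0 :=
  Fermat.Agent.T1B.Node45.LocalPhi.phi_top c0 hK
    (fun E => levelData_of c0 hK E (HL E)) G hG hG' hdesc hinj P00 hPP hJ1Pt

/-- `LocalPhi.phi_glue` (the `phi` binder of `Local66.Glue.localGeom_of_fields`, `C := JextTop`)
from the level-wise `LevelHyp` with the `Level90` data. -/
theorem phi_glue' [Nonempty (NLevel p K)] [Algebra.FiniteType (Wb p K) B0]
    [Algebra.FiniteType (Wb p K) B1] (hK : InertFixed (padicPlace p) K)
    (HL : ∀ E : NLevel p K,
      letI := algWO E.lev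
      letI := algWE E.lev
      letI := algOE E.E
      haveI := tower_W_O_E E.lev
      haveI := isDVR_O E.E
      haveI := isFractionRing_O_E E.E
      LevelHyp c0 ↥(intSubring p E.E) ↥E.E (piE E.E) (tauL hK E) (tauO hK E) (eE E.E))
    (G : ∀ E : NLevel p K, letI := algWE E.lev; Subgroup (↥E.E ≃ₐ[Wb p K] ↥E.E))
    (hG : ∀ E τ, Fermat.Agent.T1B.Node45.LocalPhi.tauE hK E τ ∈ G E)
    (hG' : ∀ E, ∀ σ ∈ G E, ∃ τ : ↥(Ip p), σ = Fermat.Agent.T1B.Node45.LocalPhi.tauE hK E τ)
    (hdesc : ∀ E : NLevel p K,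
      letI := algWE E.lev
      letI := algWKbar p K
      letI := algEKbar E.E
      haveI := tower_W_E_Kbar E.lev
      DescStatement c0 ↥E.E (Kbar p) (G E))
    (hinj : ∀ E : NLevel p K, Function.Injective (bcE c0 E))
    (P00 : ∀ E : NLevel p K, Subgroup (PicO c0 E)) (hPP : Compatible c0 P00)
    (hJ1Pt : J1top c0 P00 hPP ≤ PtTop c0) :
    letI := actTop c0 hK
    ∀ y ∈ PtTop c0, ∀ t ∈ J1top c0 P00 hPP, (∀ τ : ↥(Ip p), τ • (y - t) = y - t) →
      ∃ z ∈ JextTop c0, y - t - z ∈ J0top c0 P00 hPP :=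
  Fermat.Agent.T1B.Node45.LocalPhi.phi_glue c0 hK
    (fun E => levelData_of c0 hK E (HL E)) G hG hG' hdesc hinj P00 hPP hJ1Pt

/-- `LocalPhi.sub_mem_J0_top` (the `sub_mem_J0` binder of `Local66.Glue.localGeom_of_fields`) from
the level-wise `LevelHyp` with the `Level90` data: the uniformiser is `piE E.E` and `hπ` is
discharged. -/
theorem sub_mem_J0_top' [Nonempty (NLevel p K)] (hK : InertFixed (padicPlace p) K)
    (HL : ∀ E : NLevel p K,
      letI := algWO E.lev
      letI := algWE E.lev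
      letI := algOE E.E
      haveI := tower_W_O_E E.lev
      haveI := isDVR_O E.E
      haveI := isFractionRing_O_E E.E
      LevelHyp c0 ↥(intSubring p E.E) ↥E.E (piE E.E) (tauL hK E) (tauO hK E) (eE E.E))
    {ι : Type}
    (hg : ∀ E : NLevel p K, letI := algWO E.lev
      NodalGood (c0.baseChange ↥(intSubring p E.E)) (piE E.E) ι)
    (κ : NLevel p K → Type) [∀ E, Field (κ E)]
    (X : ∀ E : NLevel p K, letI := algWO E.lev
      ∀ i, Comp (c0.baseChange ↥(intSubring p E.E)) ((hg E).P0 i) ((hg E).P1 i) (κ E))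
    (P00 : ∀ E : NLevel p K, Subgroup (PicO c0 E)) (hPP : Compatible c0 P00)
    (hP : ∀ E : NLevel p K, letI := algWO E.lev
      Fermat.Agent.T1B.Bal60.P00 (hg E) (X E) ≤ P00 E) :
    letI := actTop c0 hK
    ∀ τ : ↥(Ip p), ∀ x ∈ PtTop c0, τ • x - x ∈ J0top c0 P00 hPP :=
  Fermat.Agent.T1B.Node45.LocalPhi.sub_mem_J0_top c0 hK
    (fun E => levelData_of c0 hK E (HL E)) hg κ X
    (fun E => maximalIdeal_eq_span_piE E.E) P00 hPP hP

end Charts

end Fermat.Agent.T1B.Level90
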